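import Fermat.Agent.A2.H609.ChartNode
import Fermat.Agent.A2.Alg.H34.Val

/-!
# Node purity, part 14: purity at a smooth point of a semistable chart

`B` a noetherian integrally closed domain with fraction field `F`, `p p'` the two components of
the special fibre (`p ⊓ p' = (w)`, incomparable), `n` a closed point on `p` and not on `p'`,
`p ≠ n`, `B ⧸ p` Dedekind.  If `u ∈ Fˣ` is locally `unit × m`-th power at every discrete valuation
ring `V ⊇ B[1/w]` and has constant unit residue on `p`, then there is `d ∈ Fˣ` with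
`u d ^ m ∈ (B_n)ˣ` and `d` a unit on BOTH components (`exists_pureAt_smooth`).
-/

set_option autoImplicit false

namespace Fermat.Agent.A2.H609

open Fermat.Agent.A2.H849

section UnitAt

variable {B : Type*} [CommRing B] {F : Type*} [Field F] [Algebra B F]

/-- `z` is a unit of `B_q`: `z = a / b` with `a, b ∈ B ∖ q`. -/
def UnitAt (q : Ideal B) (z : F) : Prop :=
  ∃ a b : B, a ∉ q ∧ b ∉ q ∧ z * algebraMap B F b = algebraMap B F a

theorem UnitAt.one (q : Ideal B) [q.IsPrime] : UnitAt q (1 : F) :=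
  ⟨1, 1, fun h => (Ideal.IsPrime.ne_top inferInstance) ((Ideal.eq_top_iff_one q).2 h),
    fun h => (Ideal.IsPrime.ne_top inferInstance) ((Ideal.eq_top_iff_one q).2 h), by simp⟩

theorem UnitAt.mul {q : Ideal B} [q.IsPrime] {z z' : F} (h : UnitAt q z) (h' : UnitAt q z') :
    UnitAt q (z * z') := by
  obtain ⟨a, b, ha, hb, e⟩ := h
  obtain ⟨a', b', ha', hb', e'⟩ := h'
  refine ⟨a * a', b * b', fun hm => ?_, fun hm => ?_, ?_⟩
  · rcases Ideal.IsPrime.mem_or_mem inferInstance hm with h1 | h1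
    · exact ha h1
    · exact ha' h1
  · rcases Ideal.IsPrime.mem_or_mem inferInstance hm with h1 | h1
    · exact hb h1
    · exact hb' h1
  · rw [map_mul, map_mul, ← e, ← e']
    ring

theorem UnitAt.pow {q : Ideal B} [q.IsPrime] {z : F} (h : UnitAt q z) (k : ℕ) :
    UnitAt q (z ^ k) := by
  induction k with
  | zero => rw [pow_zero]; exact UnitAt.one q
  | succ k ih => rw [pow_succ]; exact ih.mul h

theorem UnitAt.inv [IsDomain B] [FaithfulSMul B F] {q : Ideal B} {z : F} (h : UnitAt q z) :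
    UnitAt q z⁻¹ := by
  obtain ⟨a, b, ha, hb, e⟩ := h
  have hinj : Function.Injective (algebraMap B F) := FaithfulSMul.algebraMap_injective B F
  have haF : algebraMap B F a ≠ 0 := by
    intro h0
    apply ha
    rw [hinj (by rw [h0, map_zero] : algebraMap B F a = algebraMap B F 0)]
    exact q.zero_mem
  have hz : z ≠ 0 := by
    rintro rfl
    rw [zero_mul] at e
    exact haF e.symm
  refine ⟨b, a, hb, ha, ?_⟩
  rw [← e]
  field_simp

theorem UnitAt.algebraMap {q : Ideal B} {g : B} (hg : g ∉ q) [q.IsPrime] :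
    UnitAt q (algebraMap B F g) :=
  ⟨g, 1, hg, fun h => (Ideal.IsPrime.ne_top inferInstance) ((Ideal.eq_top_iff_one q).2 h),
    by simp⟩

end UnitAt

variable {B : Type*} [CommRing B] [IsDomain B] [IsNoetherianRing B] [IsIntegrallyClosed B]
variable {F : Type*} [Field F] [Algebra B F] [IsFractionRing B F]

omit [IsIntegrallyClosed B] in
/-- Every nonzero element of `F` is `w ^ (k₁ - k₂) × unit` at a component `p'`. -/
theorem exists_unitAt_decomp {w : B} (p p' : Ideal B) [p.IsPrime] [p'.IsPrime]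
    (hinf : p ⊓ p' = Ideal.span {w}) (h₁₂ : ¬ p ≤ p') (z : F) (hz : z ≠ 0) :
    ∃ (k₁ k₂ : ℕ) (e : F), UnitAt p' e ∧
      z * algebraMap B F w ^ k₂ = e * algebraMap B F w ^ k₁ := by
  have hinj : Function.Injective (algebraMap B F) := IsFractionRing.injective B F
  obtain ⟨c₀, hc₀p, hc₀p'⟩ := SetLike.not_le_iff_exists.mp h₁₂
  have hw : w ∈ p' := by
    have : w ∈ p ⊓ p' := by
      rw [hinf]
      exact Ideal.mem_span_singleton_self w
    exact this.2
  have hloc : ∀ a ∈ p', ∃ s, s ∉ p' ∧ ∃ a', a * s = w * a' := by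
    intro a ha
    have h1 : a * c₀ ∈ p ⊓ p' := ⟨p.mul_mem_left _ hc₀p, p'.mul_mem_right _ ha⟩
    rw [hinf] at h1
    obtain ⟨a', ha'⟩ := Ideal.mem_span_singleton'.mp h1
    exact ⟨c₀, hc₀p', a', by rw [← ha', mul_comm]⟩
  obtain ⟨X, Y, hY, rfl⟩ := IsFractionRing.div_surjective (A := B) z
  have hY0 : Y ≠ 0 := nonZeroDivisors.ne_zero hY
  have hX0 : X ≠ 0 := by
    rintro rfl
    rw [map_zero, zero_div] at hz
    exact hz rfl
  have hYF : algebraMap B F Y ≠ 0 := fun h0 => hY0 (hinj (by rw [h0, map_zero]))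
  obtain ⟨k₁, a₁, t₁, ha₁, ht₁, e₁⟩ := Alg.H34.exists_pow_mul_eq p' w hw hloc X hX0
  obtain ⟨k₂, a₂, t₂, ha₂, ht₂, e₂⟩ := Alg.H34.exists_pow_mul_eq p' w hw hloc Y hY0
  have ht₁F : algebraMap B F t₁ ≠ 0 := fun h0 => ht₁ (by
    rw [hinj (by rw [h0, map_zero] : algebraMap B F t₁ = algebraMap B F 0)]
    exact p'.zero_mem)
  have ha₂F : algebraMap B F a₂ ≠ 0 := fun h0 => ha₂ (by
    rw [hinj (by rw [h0, map_zero] : algebraMap B F a₂ = algebraMap B F 0)]
    exact p'.zero_mem)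
  have e₁F : algebraMap B F t₁ * algebraMap B F X =
      algebraMap B F w ^ k₁ * algebraMap B F a₁ := by
    rw [← map_mul, e₁, map_mul, map_pow]
  have e₂F : algebraMap B F t₂ * algebraMap B F Y =
      algebraMap B F w ^ k₂ * algebraMap B F a₂ := by
    rw [← map_mul, e₂, map_mul, map_pow]
  refine ⟨k₁, k₂, algebraMap B F (a₁ * t₂) / algebraMap B F (t₁ * a₂), ?_, ?_⟩
  · refine ⟨a₁ * t₂, t₁ * a₂, fun hm => ?_, fun hm => ?_, ?_⟩
    · rcases Ideal.IsPrime.mem_or_mem inferInstance hm with h1 | h1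
      · exact ha₁ h1
      · exact ht₂ h1
    · rcases Ideal.IsPrime.mem_or_mem inferInstance hm with h1 | h1
      · exact ht₁ h1
      · exact ha₂ h1
    · have h0 : algebraMap B F (t₁ * a₂) ≠ 0 := by
        rw [map_mul (algebraMap B F) t₁ a₂]
        exact mul_ne_zero ht₁F ha₂F
      exact div_mul_cancel₀ _ h0
  · rw [map_mul (algebraMap B F) a₁ t₂, map_mul (algebraMap B F) t₁ a₂,
      div_mul_eq_mul_div, div_mul_eq_mul_div, div_eq_div_iff hYF (mul_ne_zero ht₁F ha₂F)]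
    linear_combination (algebraMap B F w ^ k₂ * algebraMap B F a₂) * e₁F -
      (algebraMap B F w ^ k₁ * algebraMap B F a₁) * e₂F

omit [IsNoetherianRing B] [IsIntegrallyClosed B] [Algebra B F] [IsFractionRing B F]
  [IsDomain B] in
/-- A field identity: replacing `W` by `G` in a twist. -/
theorem mul_pow_inv_eq_of_mul_pow_eq {d₀ e W G : F} (hW : W ≠ 0) (hG : G ≠ 0)
    (k₁ k₂ : ℕ) (h : d₀ * W ^ k₂ = e * W ^ k₁) :
    d₀ * (G ^ k₂ * (G ^ k₁)⁻¹) = e * ((G / W) ^ k₂ * ((G / W) ^ k₁)⁻¹) := by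
  have hW1 := pow_ne_zero k₁ hW
  have hW2 := pow_ne_zero k₂ hW
  have hG1 := pow_ne_zero k₁ hG
  have hG2 := pow_ne_zero k₂ hG
  have h1 : e = d₀ * W ^ k₂ / W ^ k₁ := by
    rw [h]
    field_simp
  rw [h1, div_pow, div_pow]
  field_simp

omit [IsNoetherianRing B] [IsIntegrallyClosed B] in
/-- The generator `w` of `p ⊓ p'` is nonzero when `p`, `p'` are incomparable primes. -/
theorem ne_zero_of_inf_eq_span {w : B} (p p' : Ideal B) [p.IsPrime] [p'.IsPrime]
    (hinf : p ⊓ p' = Ideal.span {w}) (h₁₂ : ¬ p ≤ p') (h₂₁ : ¬ p' ≤ p) : w ≠ 0 := by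
  rintro rfl
  obtain ⟨c₀, hc₀p, hc₀p'⟩ := SetLike.not_le_iff_exists.mp h₁₂
  obtain ⟨g₀, hg₀p', hg₀p⟩ := SetLike.not_le_iff_exists.mp h₂₁
  have h1 : c₀ * g₀ ∈ p ⊓ p' := ⟨p.mul_mem_right _ hc₀p, p'.mul_mem_left _ hg₀p'⟩
  rw [hinf, Ideal.mem_span_singleton', ] at h1
  obtain ⟨a, ha⟩ := h1
  rw [mul_zero] at ha
  rcases mul_eq_zero.mp ha.symm with h | h
  · exact hc₀p' (h ▸ p'.zero_mem)
  · exact hg₀p (h ▸ p.zero_mem)

omit [IsNoetherianRing B] [IsIntegrallyClosed B] [IsDomain B] in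
/-- An element `g ∉ n` which is `w × unit` at the other component `p'`. -/
theorem exists_uniformizer_away {w : B} (p p' n : Ideal B) [p.IsPrime] [p'.IsPrime] [n.IsPrime]
    (hinf : p ⊓ p' = Ideal.span {w}) (h₁₂ : ¬ p ≤ p') (h₁ : p ≤ n) (h₂ : ¬ p' ≤ n) :
    ∃ g : B, g ∉ n ∧ ∃ a b : B, a ∉ p' ∧ b ∉ p' ∧ g * b = w * a := by
  obtain ⟨c₀, hc₀p, hc₀p'⟩ := SetLike.not_le_iff_exists.mp h₁₂
  obtain ⟨g₀, hg₀p', hg₀n⟩ := SetLike.not_le_iff_exists.mp h₂
  have hw : w ∈ p ⊓ p' := by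
    rw [hinf]
    exact Ideal.mem_span_singleton_self w
  have h1 : g₀ * c₀ ∈ p ⊓ p' := ⟨p.mul_mem_left _ hc₀p, p'.mul_mem_right _ hg₀p'⟩
  rw [hinf, Ideal.mem_span_singleton'] at h1
  obtain ⟨k, hk⟩ := h1
  refine ⟨g₀ ^ 2 + w, fun h => ?_, c₀ ^ 2 + w * k ^ 2, c₀ ^ 2, fun h => ?_, fun h => ?_, ?_⟩
  · have h2 : g₀ ^ 2 ∈ n := by
      have : g₀ ^ 2 = (g₀ ^ 2 + w) - w := by ring
      rw [this]
      exact n.sub_mem h (h₁ hw.1)
    exact hg₀n (Ideal.IsPrime.mem_of_pow_mem inferInstance _ h2)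
  · have h2 : c₀ ^ 2 ∈ p' := by
      have : c₀ ^ 2 = (c₀ ^ 2 + w * k ^ 2) - w * k ^ 2 := by ring
      rw [this]
      exact p'.sub_mem h (p'.mul_mem_right _ hw.2)
    exact hc₀p' (Ideal.IsPrime.mem_of_pow_mem inferInstance _ h2)
  · exact hc₀p' (Ideal.IsPrime.mem_of_pow_mem inferInstance _ h)
  · have : (g₀ ^ 2 + w) * c₀ ^ 2 = (g₀ * c₀) ^ 2 + w * c₀ ^ 2 := by ring
    rw [this, ← hk]
    ring

/-- **Purity at a smooth point of a semistable chart** (a closed point `n` on the component `p`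
and not on the component `p'`, `p ≠ n`). -/
theorem exists_pureAt_smooth {w : B} {m : ℕ} (hm : m ≠ 0)
    (p p' n : Ideal B) [p.IsPrime] [p'.IsPrime] [n.IsPrime]
    [IsDedekindDomain (B ⧸ p)]
    (hinf : p ⊓ p' = Ideal.span {w}) (h₁₂ : ¬ p ≤ p') (h₂₁ : ¬ p' ≤ p)
    (h₁ : p ≤ n) (hne : p ≠ n) (h₂ : ¬ p' ≤ n)
    (u : F)
    (hdiv : ∀ V : ValuationSubring F, IsDiscreteValuationRing V →
      (∀ b : B, algebraMap B F b ∈ V) → (algebraMap B F w)⁻¹ ∈ V →
      ∃ h u₀ : F, u₀ ∈ V ∧ u₀⁻¹ ∈ V ∧ u = u₀ * h ^ m)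
    (hs : ∃ c a b : B, IsUnit c ∧ b ∉ p ∧ a - c * b ∈ p ∧
      u * algebraMap B F b = algebraMap B F a) :
    ∃ d : F, d ≠ 0 ∧
      (∃ a b : B, a ∉ n ∧ b ∉ n ∧ u * d ^ m * algebraMap B F b = algebraMap B F a) ∧
      (∃ a b : B, a ∉ p ∧ b ∉ p ∧ d * algebraMap B F b = algebraMap B F a) ∧
      (∃ a b : B, a ∉ p' ∧ b ∉ p' ∧ d * algebraMap B F b = algebraMap B F a) := by
  have hinj : Function.Injective (algebraMap B F) := IsFractionRing.injective B F
  obtain ⟨c, a, b, hc, hb, hab, hub⟩ := hs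
  obtain ⟨hu'F, hu', hu'n⟩ := normalised_element (p := p) hm hc hb hab hub
  set u' : B := a * b ^ (m - 1) with hu'def
  have hbF : algebraMap B F b ≠ 0 := by
    intro h0
    apply hb
    rw [hinj (by rw [h0, map_zero] : algebraMap B F b = algebraMap B F 0)]
    exact p.zero_mem
  have hw0 : w ≠ 0 := ne_zero_of_inf_eq_span p p' hinf h₁₂ h₂₁
  have hwF : algebraMap B F w ≠ 0 := fun h0 => hw0 (hinj (by rw [h0, map_zero]))
  -- the local ring
  obtain ⟨hP, hPw, hdvr⟩ :=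
    Fermat.Agent.A2.H372.smooth_local_data (locAt F n) hinf h₁ hne h₂
  set U : locAt F n := algebraMap B (locAt F n) u' with hUdef
  have hUF : (U : F) = u * algebraMap B F b ^ m := hu'F
  have hU : U ∉ p.map (algebraMap B (locAt F n)) := fun h =>
    hu'n ((algebraMap_mem_map_iff h₁ u').1 h)
  have hU0 : U ≠ 0 := by
    intro h0
    apply hU
    rw [h0]
    exact Ideal.zero_mem _
  have hπ0 : algebraMap B (locAt F n) w ≠ 0 := by
    intro h0
    apply hwF
    have : ((algebraMap B (locAt F n) w : locAt F n) : F) = 0 := by rw [h0]; rfl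
    exact this
  -- (H1)
  have H1 : ∀ 𝔓 ∈ (Ideal.span {U}).minimalPrimes, algebraMap B (locAt F n) w ∉ 𝔓 →
      ∃ f r : locAt F n, r ∉ 𝔓 ∧ f ^ m = U * r := by
    intro 𝔓 h𝔓 hw𝔓
    refine exists_pow_eq_mul_of_divisible (K := F) hU0 hm h𝔓 ?_
    intro V hV hle hinv
    obtain ⟨h, u₀, hu₀, hu₀', huh⟩ := hdiv V hV
      (fun b => hle (algebraMap B (locAt F n) b)) (hinv _ hw𝔓)
    refine ⟨h * algebraMap B F b, u₀, hu₀, hu₀', ?_⟩
    rw [algebraMap_locAt_apply, hUF, huh]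
    ring
  -- (H2)
  have H2 := exists_associated_pow_mk (F := F) (p := p) (n := n) (m := m) hc hu'
  -- purity in the local ring
  obtain ⟨f, ε, hfε⟩ := exists_unit_mul_pow_of_smooth_min (R := locAt F n) hm hπ0
    (p.map (algebraMap B (locAt F n))) hPw hU H1 H2
  have hf0 : f ≠ 0 := by
    rintro rfl
    rw [zero_pow hm, mul_zero] at hfε
    exact hU0 hfε
  have hfF : (f : F) ≠ 0 := fun h => hf0 (Subtype.ext h)
  have hf₁ : f ∉ p.map (algebraMap B (locAt F n)) := by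
    intro h
    apply hU
    rw [hfε]
    exact Ideal.mul_mem_left _ _ (Ideal.pow_mem_of_mem _ h m (Nat.pos_of_ne_zero hm))
  have hfεF : u * algebraMap B F b ^ m = ((ε : locAt F n) : F) * (f : F) ^ m := by
    rw [← hUF, hfε]
    rfl
  -- the first approximation `d₀ = b / f`
  set d₀ : F := algebraMap B F b / (f : F) with hd₀def
  have hd₀0 : d₀ ≠ 0 := div_ne_zero hbF hfF
  have hd₀n : UnitAt n (u * d₀ ^ m) := by
    obtain ⟨a', s', ha', hs', h'⟩ := exists_frac_of_isUnit_locAt (F := F) n ε.isUnit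
    refine ⟨a', s', ha', hs', ?_⟩
    rw [← h', hd₀def, div_pow, ← mul_div_assoc, hfεF]
    field_simp
  have hd₀p : UnitAt p d₀ := by
    obtain ⟨φ, s, hφ, hs, h'⟩ := exists_frac_of_notMem_map (F := F) (p := p) (n := n) hf₁
    refine ⟨b * s, φ, ?_, hφ, ?_⟩
    · intro h
      rcases Ideal.IsPrime.mem_or_mem inferInstance h with h3 | h3
      · exact hb h3
      · exact hs (h₁ h3)
    · rw [← h', map_mul, hd₀def]
      field_simp
  -- correction at the other component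
  obtain ⟨g, hgn, ag, bg, hag, hbg, hg⟩ := exists_uniformizer_away p p' n hinf h₁₂ h₁ h₂
  have hgp : g ∉ p := fun h => hgn (h₁ h)
  have hgF : algebraMap B F g ≠ 0 := by
    intro h0
    apply hgn
    rw [hinj (by rw [h0, map_zero] : algebraMap B F g = algebraMap B F 0)]
    exact n.zero_mem
  have hgw : UnitAt p' (algebraMap B F g / algebraMap B F w) := by
    refine ⟨ag, bg, hag, hbg, ?_⟩
    rw [div_mul_eq_mul_div, ← map_mul, hg, map_mul]
    field_simp
  obtain ⟨k₁, k₂, e, he, hek⟩ := exists_unitAt_decomp (F := F) p p' hinf h₁₂ d₀ hd₀0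
  have hgnU : UnitAt n (algebraMap B F g) := UnitAt.algebraMap hgn
  have hgpU : UnitAt p (algebraMap B F g) := UnitAt.algebraMap hgp
  refine ⟨d₀ * (algebraMap B F g ^ k₂ * (algebraMap B F g ^ k₁)⁻¹),
    mul_ne_zero hd₀0 (mul_ne_zero (pow_ne_zero _ hgF) (inv_ne_zero (pow_ne_zero _ hgF))), ?_, ?_, ?_⟩
  · have h3 : UnitAt n (u * d₀ ^ m *
        (algebraMap B F g ^ k₂ * (algebraMap B F g ^ k₁)⁻¹) ^ m) :=
      hd₀n.mul (((hgnU.pow k₂).mul (hgnU.pow k₁).inv).pow m)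
    have h4 : u * (d₀ * (algebraMap B F g ^ k₂ * (algebraMap B F g ^ k₁)⁻¹)) ^ m =
        u * d₀ ^ m * (algebraMap B F g ^ k₂ * (algebraMap B F g ^ k₁)⁻¹) ^ m := by
      rw [mul_pow, mul_assoc]
    rw [← h4] at h3
    exact h3
  · exact hd₀p.mul ((hgpU.pow k₂).mul (hgpU.pow k₁).inv)
  · have h3 : UnitAt p' (e * ((algebraMap B F g / algebraMap B F w) ^ k₂ *
        ((algebraMap B F g / algebraMap B F w) ^ k₁)⁻¹)) :=
      he.mul ((hgw.pow k₂).mul (hgw.pow k₁).inv)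
    have h4 : d₀ * (algebraMap B F g ^ k₂ * (algebraMap B F g ^ k₁)⁻¹) =
        e * ((algebraMap B F g / algebraMap B F w) ^ k₂ *
          ((algebraMap B F g / algebraMap B F w) ^ k₁)⁻¹) :=
      mul_pow_inv_eq_of_mul_pow_eq hwF hgF k₁ k₂ hek
    rw [← h4] at h3
    exact h3

end Fermat.Agent.A2.H609
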