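import Fermat.Agent.A2.H609.Smooth

/-!
# Node purity, part 9: an ordinary double point of the special fibre

`R` a noetherian local integrally closed domain, `𝔭₁ 𝔭₂` primes with `𝔭₁ ⊓ 𝔭₂ = (π)`,
`𝔭₁ ⊔ 𝔭₂ = 𝔪` and `R ⧸ 𝔭ᵢ` discrete valuation rings (two smooth branches meeting transversally;
no hypothesis on the thickness of the node, no completion).  If `u ∉ 𝔭₁ ∪ 𝔭₂` satisfies
(H1) `m ∣ ord_𝔓 u` at the horizontal primes and (H2) `u` is a unit times an `m`-th power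
modulo each `𝔭ᵢ`, then `u = ε f ^ m`.  Mathlib only.
-/

set_option autoImplicit false

namespace Fermat.Agent.A2.H609

open Ideal

section NodeData

variable {R : Type*} [CommRing R] [IsLocalRing R]
variable (𝔭 𝔮 : Ideal R) [𝔭.IsPrime] [IsDiscreteValuationRing (R ⧸ 𝔭)]

/-- A uniformiser of the branch `𝔭` lying on the other branch `𝔮`. -/
theorem exists_mem_irreducible_mk (hsup : IsLocalRing.maximalIdeal R ≤ 𝔭 ⊔ 𝔮) :
    ∃ x ∈ 𝔮, Irreducible (Ideal.Quotient.mk 𝔭 x) := by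
  obtain ⟨ϖ, hϖ⟩ := IsDiscreteValuationRing.exists_irreducible (R ⧸ 𝔭)
  obtain ⟨z, rfl⟩ := Ideal.Quotient.mk_surjective ϖ
  have hz : z ∈ IsLocalRing.maximalIdeal R := by
    rw [IsLocalRing.mem_maximalIdeal]
    intro h
    exact hϖ.not_isUnit (h.map (Ideal.Quotient.mk 𝔭))
  obtain ⟨z₁, hz₁, z₂, hz₂, rfl⟩ := Submodule.mem_sup.mp (hsup hz)
  refine ⟨z₂, hz₂, ?_⟩
  have h : Ideal.Quotient.mk 𝔭 (z₁ + z₂) = Ideal.Quotient.mk 𝔭 z₂ := by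
    rw [Ideal.Quotient.eq, add_sub_cancel_right]
    exact hz₁
  rwa [h] at hϖ

/-- The other branch is generated by the uniformiser and `𝔭 ⊓ 𝔮`. -/
theorem le_span_sup_inf {x : R} (hx𝔮 : x ∈ 𝔮) (hx : Irreducible (Ideal.Quotient.mk 𝔭 x))
    (h𝔮 : 𝔮 ≤ IsLocalRing.maximalIdeal R) : 𝔮 ≤ Ideal.span {x} ⊔ (𝔭 ⊓ 𝔮) := by
  intro z hz
  obtain ⟨g, hg⟩ := exists_sub_mul_mem_of_mem_maximalIdeal 𝔭 hx (h𝔮 hz)
  have h : z = x * g + (z - x * g) := by ring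
  rw [h]
  refine Ideal.add_mem _
    (Ideal.mem_sup_left (Ideal.mem_span_singleton.mpr (Dvd.intro g rfl)))
    (Ideal.mem_sup_right ⟨hg, ?_⟩)
  exact 𝔮.sub_mem hz (𝔮.mul_mem_right _ hx𝔮)

end NodeData

variable {R : Type*} [CommRing R] [IsDomain R] [IsIntegrallyClosed R] [IsNoetherianRing R]
  [IsLocalRing R]

/-- **Purity at an ordinary double point of the special fibre.** -/
theorem exists_unit_mul_pow_of_node {u π : R} {m : ℕ} (hm : m ≠ 0)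
    (𝔭₁ 𝔭₂ : Ideal R) [𝔭₁.IsPrime] [𝔭₂.IsPrime]
    [IsDiscreteValuationRing (R ⧸ 𝔭₁)] [IsDiscreteValuationRing (R ⧸ 𝔭₂)]
    (hinf : 𝔭₁ ⊓ 𝔭₂ = Ideal.span {π}) (hsup : 𝔭₁ ⊔ 𝔭₂ = IsLocalRing.maximalIdeal R)
    (hu₁ : u ∉ 𝔭₁) (hu₂ : u ∉ 𝔭₂)
    (H1 : ∀ 𝔓 : Ideal R, 𝔓.IsPrime → u ∈ 𝔓 → π ∉ 𝔓 → ∃ f r : R, r ∉ 𝔓 ∧ f ^ m = u * r)
    (H2₁ : ∃ v : R ⧸ 𝔭₁, Associated (v ^ m) (Ideal.Quotient.mk 𝔭₁ u))
    (H2₂ : ∃ v : R ⧸ 𝔭₂, Associated (v ^ m) (Ideal.Quotient.mk 𝔭₂ u)) :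
    ∃ (f : R) (ε : Rˣ), u = ε * f ^ m := by
  have h𝔭₁𝔪 : 𝔭₁ ≤ IsLocalRing.maximalIdeal R := hsup ▸ le_sup_left
  have h𝔭₂𝔪 : 𝔭₂ ≤ IsLocalRing.maximalIdeal R := hsup ▸ le_sup_right
  have hπ₁ : π ∈ 𝔭₁ :=
    (inf_le_left : 𝔭₁ ⊓ 𝔭₂ ≤ 𝔭₁) (hinf ▸ Ideal.mem_span_singleton_self π)
  have hπ₂ : π ∈ 𝔭₂ :=
    (inf_le_right : 𝔭₁ ⊓ 𝔭₂ ≤ 𝔭₂) (hinf ▸ Ideal.mem_span_singleton_self π)
  have hmem_inf : ∀ z : R, z ∈ 𝔭₁ → z ∈ 𝔭₂ → ∃ c : R, z = c * π := by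
    intro z h1 h2
    have h : z ∈ 𝔭₁ ⊓ 𝔭₂ := ⟨h1, h2⟩
    rw [hinf] at h
    exact Ideal.mem_span_singleton'.mp h |>.imp fun c hc => hc.symm
  have hu0 : u ≠ 0 := by
    rintro rfl
    exact hu₁ 𝔭₁.zero_mem
  -- uniformisers of the two branches
  obtain ⟨x, hx₂, hx⟩ := exists_mem_irreducible_mk 𝔭₁ 𝔭₂ hsup.ge
  obtain ⟨y, hy₁, hy⟩ := exists_mem_irreducible_mk 𝔭₂ 𝔭₁ (by rw [sup_comm]; exact hsup.ge)
  have hx₁ : x ∉ 𝔭₁ := fun h => hx.ne_zero (Ideal.Quotient.eq_zero_iff_mem.mpr h)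
  have hy₂ : y ∉ 𝔭₂ := fun h => hy.ne_zero (Ideal.Quotient.eq_zero_iff_mem.mpr h)
  have h𝔭₂ : 𝔭₂ ≤ Ideal.span {x} ⊔ Ideal.span {π} := by
    rw [← hinf]
    exact le_span_sup_inf 𝔭₁ 𝔭₂ hx₂ hx h𝔭₂𝔪
  have h𝔭₁ : 𝔭₁ ≤ Ideal.span {y} ⊔ Ideal.span {π} := by
    rw [← hinf, inf_comm]
    exact le_span_sup_inf 𝔭₂ 𝔭₁ hy₁ hy h𝔭₁𝔪
  have h𝔭₂' : 𝔭₂ = Ideal.span {x} ⊔ Ideal.span {π} :=
    le_antisymm h𝔭₂ (sup_le ((Ideal.span_singleton_le_iff_mem _).mpr hx₂)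
      ((Ideal.span_singleton_le_iff_mem _).mpr hπ₂))
  have hπ0 : π ≠ 0 := by
    rintro rfl
    obtain ⟨c, hc⟩ := hmem_inf (x * y) (𝔭₁.mul_mem_left _ hy₁) (𝔭₂.mul_mem_right _ hx₂)
    rw [mul_zero] at hc
    rcases mul_eq_zero.mp hc with h | h
    · exact hx₁ (h ▸ 𝔭₁.zero_mem)
    · exact hy₂ (h ▸ 𝔭₂.zero_mem)
  obtain ⟨a₁, ε₁, hε₁⟩ := exists_mk_eq_unit_mul_pow 𝔭₁ hx hm hu₁ H2₁
  obtain ⟨a₂, ε₂, hε₂⟩ := exists_mk_eq_unit_mul_pow 𝔭₂ hy hm hu₂ H2₂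
  have hreg : ∀ z : R, π ∣ u * z → π ∣ z := by
    intro z hz
    have h1 : u * z ∈ 𝔭₁ ⊓ 𝔭₂ := by
      rw [hinf]
      exact Ideal.mem_span_singleton.mpr hz
    have h2 : z ∈ 𝔭₁ :=
      (Ideal.IsPrime.mem_or_mem inferInstance h1.1).resolve_left hu₁
    have h3 : z ∈ 𝔭₂ :=
      (Ideal.IsPrime.mem_or_mem inferInstance h1.2).resolve_left hu₂
    obtain ⟨c, hc⟩ := hmem_inf z h2 h3
    exact ⟨c, by rw [hc, mul_comm]⟩
  have huπ : ∀ 𝔮 : Ideal R, 𝔮.IsPrime → u ∈ 𝔮 → π ∈ 𝔮 →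
      𝔮 = IsLocalRing.maximalIdeal R := by
    intro 𝔮 h𝔮 hu𝔮 hπ𝔮
    have hle : 𝔭₁ ⊓ 𝔭₂ ≤ 𝔮 := by
      rw [hinf, Ideal.span_singleton_le_iff_mem]
      exact hπ𝔮
    refine le_antisymm (IsLocalRing.le_maximalIdeal h𝔮.ne_top) ?_
    rw [← hsup]
    rcases h𝔮.inf_le.mp hle with h | h
    · have hx𝔮 : x ∈ 𝔮 := mem_of_le_of_mk_eq 𝔭₁ hε₁ h𝔮 h hu𝔮
      refine sup_le h (h𝔭₂.trans (sup_le ?_ ?_))
      · exact (Ideal.span_singleton_le_iff_mem _).mpr hx𝔮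
      · exact (Ideal.span_singleton_le_iff_mem _).mpr hπ𝔮
    · have hy𝔮 : y ∈ 𝔮 := mem_of_le_of_mk_eq 𝔭₂ hε₂ h𝔮 h hu𝔮
      refine sup_le (h𝔭₁.trans (sup_le ?_ ?_)) h
      · exact (Ideal.span_singleton_le_iff_mem _).mpr hy𝔮
      · exact (Ideal.span_singleton_le_iff_mem _).mpr hπ𝔮
  -- the lengths of the ideals `J(b, c) = (x ^ b, y ^ c, π)`, `b, c ≥ 1`
  have hlen : ∀ k c : ℕ, relLen
      (Ideal.span {x ^ (1 + k)} ⊔ (Ideal.span {y ^ (c + 1)} ⊔ Ideal.span {π}))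
      (⊤ : Ideal R) = ((k + (c + 1) : ℕ) : ℕ∞) := by
    intro k c
    have h𝔞 : Ideal.span {y ^ (c + 1)} ⊔ Ideal.span {π} ≤ 𝔭₁ :=
      sup_le ((Ideal.span_singleton_le_iff_mem _).mpr (𝔭₁.pow_mem_of_mem hy₁ _ (by omega)))
        ((Ideal.span_singleton_le_iff_mem _).mpr hπ₁)
    have hchain := relLen_pow_chain 𝔭₁ hx _ h𝔞 1 ?_ k
    · have hbase : Ideal.span {x ^ 1} ⊔ (Ideal.span {y ^ (c + 1)} ⊔ Ideal.span {π}) =
          Ideal.span {y ^ (c + 1)} ⊔ 𝔭₂ := by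
        rw [pow_one, h𝔭₂', sup_left_comm]
      have hmono : Ideal.span {x ^ (1 + k)} ⊔ (Ideal.span {y ^ (c + 1)} ⊔ Ideal.span {π}) ≤
          Ideal.span {x ^ 1} ⊔ (Ideal.span {y ^ (c + 1)} ⊔ Ideal.span {π}) := by
        refine sup_le_sup_right ?_ _
        rw [Ideal.span_singleton_le_span_singleton]
        exact pow_dvd_pow x (by omega)
      rw [relLen_add hmono le_top, hchain, hbase, relLen_branch_pow 𝔭₂ hy (c + 1)]
      push_cast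
      rfl
    · intro n hn s hs
      obtain ⟨g, hg⟩ := exists_sub_mul_mem_of_mem_maximalIdeal 𝔭₁ hx hs
      obtain ⟨d, hd⟩ := hmem_inf ((s - x * g) * x ^ n) (𝔭₁.mul_mem_right _ hg)
        (𝔭₂.mul_mem_left _ (𝔭₂.pow_mem_of_mem hx₂ _ (by omega)))
      have h : s * x ^ n = x ^ (n + 1) * g + d * π := by
        rw [← hd]
        ring
      rw [h]
      exact Ideal.add_mem _
        (Ideal.mem_sup_left (Ideal.mem_span_singleton.mpr (Dvd.intro g rfl)))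
        (Ideal.mem_sup_right (Ideal.mem_sup_right
          (Ideal.mem_span_singleton.mpr (Dvd.intro_left d rfl))))
  refine exists_unit_mul_pow_of_relLen hm hu0 hπ0 (h𝔭₁𝔪 hπ₁) hreg huπ H1
    (Ideal.span {x ^ (1 + a₁)} ⊔ (Ideal.span {y ^ (a₂ + 1)} ⊔ Ideal.span {π}))
    (Ideal.mem_sup_right (Ideal.mem_sup_right (Ideal.mem_span_singleton_self π))) ?_
    (a₁ + (a₂ + 1)) (hlen a₁ a₂).ge ?_
  · -- every `f` with `f ^ m = u r`, `r ∈ 𝔪`, lies in `J(a₁ + 1, a₂ + 1)`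
    intro f r hf hr
    obtain ⟨g₁, hg₁⟩ := exists_sub_pow_succ_mul_mem 𝔭₁ hx hε₁ hf hr
    obtain ⟨g₂, hg₂⟩ := exists_sub_pow_succ_mul_mem 𝔭₂ hy hε₂ hf hr
    obtain ⟨d, hd⟩ := hmem_inf (f - x ^ (a₁ + 1) * g₁ - y ^ (a₂ + 1) * g₂)
      (𝔭₁.sub_mem hg₁ (𝔭₁.mul_mem_right _ (𝔭₁.pow_mem_of_mem hy₁ _ (by omega))))
      (by
        have h : f - x ^ (a₁ + 1) * g₁ - y ^ (a₂ + 1) * g₂ =
            (f - y ^ (a₂ + 1) * g₂) - x ^ (a₁ + 1) * g₁ := by ring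
        rw [h]
        exact 𝔭₂.sub_mem hg₂ (𝔭₂.mul_mem_right _ (𝔭₂.pow_mem_of_mem hx₂ _ (by omega))))
    have h : f = x ^ (1 + a₁) * g₁ + (y ^ (a₂ + 1) * g₂ + d * π) := by
      rw [← hd, add_comm 1 a₁]
      ring
    rw [h]
    exact Ideal.add_mem _
      (Ideal.mem_sup_left (Ideal.mem_span_singleton.mpr (Dvd.intro g₁ rfl)))
      (Ideal.mem_sup_right (Ideal.add_mem _
        (Ideal.mem_sup_left (Ideal.mem_span_singleton.mpr (Dvd.intro g₂ rfl)))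
        (Ideal.mem_sup_right (Ideal.mem_span_singleton.mpr (Dvd.intro_left d rfl)))))
  · -- `ℓ(R/(u, π)) ≤ m (a₁ + a₂)`
    set J'' : Ideal R :=
      Ideal.span {x ^ (1 + m * a₁)} ⊔ (Ideal.span {y ^ (m * a₂ + 1)} ⊔ Ideal.span {π})
      with hJ''
    set T : Ideal R := IsLocalRing.maximalIdeal R * Ideal.span {u} ⊔ Ideal.span {π} with hT
    have hxT : x ^ (1 + m * a₁) ∈ T := by
      obtain ⟨e, he⟩ := exists_pow_sub_mul_mem 𝔭₁ hε₁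
      obtain ⟨d, hd⟩ := hmem_inf (x * (x ^ (m * a₁) - u * e)) (𝔭₁.mul_mem_left _ he)
        (𝔭₂.mul_mem_right _ hx₂)
      have h : x ^ (1 + m * a₁) = (x * e) * u + d * π := by
        rw [← hd]
        ring
      rw [h]
      exact Ideal.add_mem _
        (Ideal.mem_sup_left (Ideal.mul_mem_mul (Ideal.mul_mem_right _ _ (h𝔭₂𝔪 hx₂))
          (Ideal.mem_span_singleton_self u)))
        (Ideal.mem_sup_right (Ideal.mem_span_singleton.mpr (Dvd.intro_left d rfl)))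
    have hyT : y ^ (m * a₂ + 1) ∈ T := by
      obtain ⟨e, he⟩ := exists_pow_sub_mul_mem 𝔭₂ hε₂
      obtain ⟨d, hd⟩ := hmem_inf (y * (y ^ (m * a₂) - u * e)) (𝔭₁.mul_mem_right _ hy₁)
        (𝔭₂.mul_mem_left _ he)
      have h : y ^ (m * a₂ + 1) = (y * e) * u + d * π := by
        rw [← hd]
        ring
      rw [h]
      exact Ideal.add_mem _
        (Ideal.mem_sup_left (Ideal.mul_mem_mul (Ideal.mul_mem_right _ _ (h𝔭₁𝔪 hy₁))
          (Ideal.mem_span_singleton_self u)))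
        (Ideal.mem_sup_right (Ideal.mem_span_singleton.mpr (Dvd.intro_left d rfl)))
    have hJT : J'' ≤ T :=
      sup_le ((Ideal.span_singleton_le_iff_mem _).mpr hxT)
        (sup_le ((Ideal.span_singleton_le_iff_mem _).mpr hyT) le_sup_right)
    have huT : u ∉ T := by
      intro h
      obtain ⟨t, ht, p, hp, htp⟩ := Submodule.mem_sup.mp h
      obtain ⟨s, hs, rfl⟩ := Ideal.mem_mul_span_singleton.mp ht
      obtain ⟨c, rfl⟩ := Ideal.mem_span_singleton'.mp hp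
      have h1 : u * (1 - s) ∈ 𝔭₁ := by
        have : u * (1 - s) = c * π := by
          linear_combination -htp
        rw [this]
        exact 𝔭₁.mul_mem_left _ hπ₁
      rcases Ideal.IsPrime.mem_or_mem inferInstance h1 with h2 | h2
      · exact hu₁ h2
      · have h3 : (1 : R) ∈ IsLocalRing.maximalIdeal R := by
          have : (1 : R) = (1 - s) + s := by ring
          rw [this]
          exact Ideal.add_mem _ (h𝔭₁𝔪 h2) hs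
        exact (Ideal.ne_top_iff_one _).mp (IsLocalRing.maximalIdeal.isMaximal R).ne_top h3
    have hTle : T ≤ Ideal.span {u, π} := by
      refine sup_le ?_ ?_
      · refine Ideal.mul_le_right.trans ?_
        rw [Ideal.span_singleton_le_iff_mem]
        exact Ideal.subset_span (by simp)
      · rw [Ideal.span_singleton_le_iff_mem]
        exact Ideal.subset_span (by simp)
    have h1 : 1 ≤ relLen J'' (Ideal.span {u, π}) :=
      one_le_relLen_of_notMem (Ideal.subset_span (by simp)) (fun h => huT (hJT h))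
    have h2 : relLen J'' (⊤ : Ideal R) = ((m * a₁ + (m * a₂ + 1) : ℕ) : ℕ∞) := hlen _ _
    rw [relLen_add (hJT.trans hTle) le_top] at h2
    have h3 : relLen (Ideal.span {u, π}) (⊤ : Ideal R) ≠ ⊤ := by
      intro h
      rw [h, add_top] at h2
      exact ENat.top_ne_natCast _ h2
    have h4 : relLen J'' (Ideal.span {u, π}) ≠ ⊤ := by
      intro h
      rw [h, top_add] at h2
      exact ENat.top_ne_natCast _ h2
    lift relLen (Ideal.span {u, π}) (⊤ : Ideal R) to ℕ using h3 with L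
    lift relLen J'' (Ideal.span {u, π}) to ℕ using h4 with L'
    have h5 : 1 ≤ L' := by exact_mod_cast h1
    have h6 : L' + L = m * a₁ + (m * a₂ + 1) := by exact_mod_cast h2
    have h7 : L < m * (a₁ + (a₂ + 1)) := by
      have : 0 < m := Nat.pos_of_ne_zero hm
      nlinarith
    exact_mod_cast h7

end Fermat.Agent.A2.H609
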